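import Fermat.Agent.A2.Spec
import Fermat.Agent.S18.H568.D2

/-!
# Cell A2 — D2 (helper562): descent of the Kummer form of the wall along `N ∣ M`

`KummerTarget M q m → KummerTarget N q m` for `N ∣ M` when `[F̄_M : F̄_N]` is finite and prime
to `m` (norm trick, `S18.H568.exists_pow_of_norm_coprime`), and the node form

    KummerTarget (if q = 3 then lcm N 2 else if q = 2 then lcm N 3 else N) q m → KummerTarget N q m

for `q ∤ m`.  Consequence: for `q ∈ {2, 3}` the model (MOD) is only needed at levels divisible by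
`3` resp. `2`, where the Hauptmodul coordinates `t₃` resp. `t₂` of S18 exist.

The same for `Target` is NOT needed: `Target` follows from `KummerTarget` at the same level (T0).
-/

set_option autoImplicit false
set_option linter.style.haveILetI false

noncomputable section

namespace Fermat.Agent.A2.H562

open ModularCurve AlgebraicCurve HahnSeries IntermediateField Module
open Fermat.Agent.S18 Fermat.Agent.S18.H568

/-- The inclusion `F̄_N ⊆ F̄_M` commutes with the arithmetic Galois action. -/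
theorem inclusion_act {N M : ℕ} [NeZero N] [NeZero M] (h : N ∣ M) (τ : Qb ≃ₐ[ℚ] Qb)
    (f : modularFunctionFieldBar N) :
    IntermediateField.inclusion (bar_le_of_dvd h) (act N τ f) =
      act M τ (IntermediateField.inclusion (bar_le_of_dvd h) f) := by
  apply Subtype.ext
  rw [IntermediateField.coe_inclusion, coe_arithmeticRingAut_apply, coe_arithmeticRingAut_apply,
    IntermediateField.coe_inclusion]

/-- **General descent** of the Kummer form of the wall: `N ∣ M`, `[F̄_M : F̄_N]` finite and prime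
to `m`. -/
theorem kummerTarget_of_dvd (N M : ℕ) [NeZero N] [NeZero M] (hNM : N ∣ M) (q m : ℕ)
    (hm0 : m ≠ 0)
    (hd0 : (modularFunctionFieldBar N).relfinrank (modularFunctionFieldBar M) ≠ 0)
    (hcop : Nat.Coprime ((modularFunctionFieldBar N).relfinrank (modularFunctionFieldBar M)) m) :
    KummerTarget M q m → KummerTarget N q m := by
  intro hM P hP τ hτ f hf hord
  have hle := bar_le_of_dvd hNM
  set φ : modularFunctionFieldBar N →ₐ[Qb] modularFunctionFieldBar M :=
    IntermediateField.inclusion hle with hφdef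
  letI : Algebra (modularFunctionFieldBar N) (modularFunctionFieldBar M) := algebraAlong φ
  haveI : IsScalarTower Qb (modularFunctionFieldBar N) (modularFunctionFieldBar M) :=
    isScalarTower_along φ
  haveI hfd : FiniteDimensional (modularFunctionFieldBar N) (modularFunctionFieldBar M) :=
    finiteDimensional_inclusion hle hd0
  have hfr : finrank (modularFunctionFieldBar N) (modularFunctionFieldBar M) =
      (modularFunctionFieldBar N).relfinrank (modularFunctionFieldBar M) :=
    finrank_inclusion_eq_relfinrank hle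
  have hφint : φ.toRingHom.IsIntegral := fun x =>
    (Algebra.IsIntegral.of_finite (modularFunctionFieldBar N) (modularFunctionFieldBar M)).isIntegral x
  have hφf : φ f ≠ 0 := by
    rw [Ne, map_eq_zero_iff φ φ.toRingHom.injective]
    exact hf
  obtain ⟨h, hh, hrel⟩ := hM P hP τ hτ (φ f) hφf (fun w => by
    rw [Place.ord_restrictAlong φ hφint w]
    exact Dvd.dvd.mul_left (hord _) _)
  -- the element to descend
  have hτf : act N τ f ≠ 0 := by
    rw [Ne, map_eq_zero_iff _ (act N τ).injective]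
    exact hf
  have hττf : act N τ (act N τ f) ≠ 0 := by
    rw [Ne, map_eq_zero_iff _ (act N τ).injective]
    exact hτf
  set u : modularFunctionFieldBar N := act N τ (act N τ f) * f / (act N τ f) ^ 2 with hu
  have hu0 : u ≠ 0 := div_ne_zero (mul_ne_zero hττf hf) (pow_ne_zero _ hτf)
  have e1 : φ (act N τ f) = act M τ (φ f) := inclusion_act hNM τ f
  have e2 : φ (act N τ (act N τ f)) = act M τ (act M τ (φ f)) := by
    rw [← e1]
    exact inclusion_act hNM τ (act N τ f)
  have hφτf : φ (act N τ f) ≠ 0 := by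
    rw [Ne, map_eq_zero_iff φ φ.toRingHom.injective]
    exact hτf
  have hkey : algebraMap (modularFunctionFieldBar N) (modularFunctionFieldBar M) u =
      algebraMap Qb (modularFunctionFieldBar M) 1 * h ^ m := by
    show φ u = _
    rw [map_one, one_mul, hu, map_div₀, map_mul, map_pow, e2, e1, hrel]
    rw [← e1]
    exact mul_div_cancel_right₀ _ (pow_ne_zero _ hφτf)
  obtain ⟨c', y', hc', hy', hfin⟩ :=
    exists_pow_of_norm_coprime m (by rw [hfr]; exact hcop) u hu0 (1 : Qb) one_ne_zero h hh hkey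
  -- `c'` is an `m`-th power in `ℚ̄`
  obtain ⟨d, hd⟩ := IsAlgClosed.exists_pow_nat_eq c' (Nat.pos_of_ne_zero hm0)
  have hd0' : d ≠ 0 := by
    rintro rfl
    rw [zero_pow hm0] at hd
    exact hc' hd.symm
  refine ⟨algebraMap Qb (modularFunctionFieldBar N) d * y', mul_ne_zero ?_ hy', ?_⟩
  · rw [Ne, map_eq_zero_iff _ (algebraMap Qb (modularFunctionFieldBar N)).injective]
    exact hd0'
  · have h1 : act N τ (act N τ f) * f = u * (act N τ f) ^ 2 := by
      rw [hu, div_mul_cancel₀ _ (pow_ne_zero _ hτf)]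
    have h2 : (algebraMap Qb (modularFunctionFieldBar N) d * y') ^ m =
        algebraMap Qb (modularFunctionFieldBar N) c' * y' ^ m := by
      rw [mul_pow, ← map_pow, hd]
    rw [h1, hfin, h2]

/-- Descent along `N ∣ N * p`, `p` prime not dividing `N`, when `p + 1` is prime to `m`. -/
theorem kummerTarget_of_mul_prime (N p : ℕ) [NeZero N] (hp : p.Prime) (hpN : ¬ p ∣ N)
    (q m : ℕ) (hm0 : m ≠ 0) (h2 : Nat.Coprime (p + 1) m) :
    KummerTarget (N * p) q m → KummerTarget N q m := by
  haveI : NeZero (N * p) := ⟨Nat.mul_ne_zero (NeZero.ne N) hp.ne_zero⟩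
  have hdeg := Fermat.Agent.S28.H988.relfinrank_bar_mul_prime N p (NeZero.ne N) hp
  rw [if_neg hpN] at hdeg
  refine kummerTarget_of_dvd N (N * p) (Dvd.intro p rfl) q m hm0 ?_ ?_
  · rw [hdeg]; exact Nat.succ_ne_zero p
  · rw [hdeg]; exact h2

/-- **D2 for the wall A2** (node form, same level function as S18 `node_d2`): for `q ∤ m` it
suffices to prove the Kummer form of the wall at the level `lcm N 2` (`q = 3`), `lcm N 3`
(`q = 2`), `N` (otherwise). -/
theorem kummerTarget_d2 (N : ℕ) [NeZero N] (q m : ℕ) (hm0 : m ≠ 0) (hm : ¬ q ∣ m) :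
    KummerTarget (if q = 3 then Nat.lcm N 2 else if q = 2 then Nat.lcm N 3 else N) q m →
      KummerTarget N q m := by
  split_ifs with h3 h2
  · subst h3
    by_cases h : 2 ∣ N
    · rw [Nat.lcm_eq_left h]; exact id
    · have hc : Nat.Coprime N 2 :=
        (Nat.coprime_comm.mp ((Nat.Prime.coprime_iff_not_dvd Nat.prime_two).mpr h))
      rw [hc.lcm_eq_mul]
      have hm3 : Nat.Coprime 3 m := (Nat.Prime.coprime_iff_not_dvd Nat.prime_three).mpr hm
      exact kummerTarget_of_mul_prime N 2 Nat.prime_two h 3 m hm0 hm3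
  · subst h2
    by_cases h : 3 ∣ N
    · rw [Nat.lcm_eq_left h]; exact id
    · have hc : Nat.Coprime N 3 :=
        (Nat.coprime_comm.mp ((Nat.Prime.coprime_iff_not_dvd Nat.prime_three).mpr h))
      rw [hc.lcm_eq_mul]
      have hm2 : Nat.Coprime 2 m := (Nat.Prime.coprime_iff_not_dvd Nat.prime_two).mpr hm
      have hm4 : Nat.Coprime (3 + 1) m := by
        have : (3 + 1 : ℕ) = 2 ^ 2 := by norm_num
        rw [this]
        exact Nat.Coprime.pow_left 2 hm2
      exact kummerTarget_of_mul_prime N 3 Nat.prime_three h 2 m hm0 hm4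
  · exact id

/-- The level of `kummerTarget_d2` is again exactly divisible by `q`, and divisible by `3`
(`q = 2`) resp. `2` (`q = 3`). -/
theorem d2_level_facts (N q : ℕ) (hq : q.Prime) (hqN : q ∣ N) (hq2 : ¬ q ^ 2 ∣ N) (hN : N ≠ 0) :
    let N' := if q = 3 then Nat.lcm N 2 else if q = 2 then Nat.lcm N 3 else N
    q ∣ N' ∧ ¬ q ^ 2 ∣ N' ∧ N' ≠ 0 ∧ N ∣ N' ∧ (q = 2 → 3 ∣ N') ∧ (q = 3 → 2 ∣ N') := by
  intro N'
  have key : ∀ r : ℕ, r.Prime → r ≠ q → (q ∣ Nat.lcm N r ∧ ¬ q ^ 2 ∣ Nat.lcm N r ∧
      Nat.lcm N r ≠ 0 ∧ N ∣ Nat.lcm N r ∧ r ∣ Nat.lcm N r) := by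
    intro r hr hrq
    refine ⟨hqN.trans (Nat.dvd_lcm_left N r), ?_, Nat.lcm_ne_zero hN hr.ne_zero,
      Nat.dvd_lcm_left N r, Nat.dvd_lcm_right N r⟩
    intro h
    have hcop : Nat.Coprime (q ^ 2) r :=
      Nat.Coprime.pow_left 2 ((Nat.coprime_primes hq hr).mpr (Ne.symm hrq))
    have h1 : q ^ 2 ∣ N * r := h.trans (Nat.lcm_dvd_mul N r)
    exact hq2 (hcop.dvd_of_dvd_mul_right h1)
  show q ∣ N' ∧ ¬ q ^ 2 ∣ N' ∧ N' ≠ 0 ∧ N ∣ N' ∧ (q = 2 → 3 ∣ N') ∧ (q = 3 → 2 ∣ N')
  by_cases h3 : q = 3
  · have hN' : N' = Nat.lcm N 2 := if_pos h3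
    obtain ⟨a, b, c, d, e⟩ := key 2 Nat.prime_two (by omega)
    rw [hN']
    exact ⟨a, b, c, d, fun h => by omega, fun _ => e⟩
  · by_cases h2 : q = 2
    · have hN' : N' = Nat.lcm N 3 := by
        show (if q = 3 then Nat.lcm N 2 else if q = 2 then Nat.lcm N 3 else N) = _
        rw [if_neg h3, if_pos h2]
      obtain ⟨a, b, c, d, e⟩ := key 3 Nat.prime_three (by omega)
      rw [hN']
      exact ⟨a, b, c, d, fun _ => e, fun h => absurd h h3⟩
    · have hN' : N' = N := by
        show (if q = 3 then Nat.lcm N 2 else if q = 2 then Nat.lcm N 3 else N) = _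
        rw [if_neg h3, if_neg h2]
      rw [hN']
      exact ⟨hqN, hq2, hN, dvd_rfl, fun h => absurd h h2, fun h => absurd h h3⟩

end Fermat.Agent.A2.H562

end
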