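import Fermat.Agent.A2.H562.D2
import Fermat.Agent.A2.Top.H994.Wall

/-!
# Cell A2 — `D2Statement` of the final assembly `Top.H994.wall` (helper562)

`Fermat.Agent.A2.Top.H994.D2Statement` (descent of `KummerTarget` from the auxiliary level
`lcm N 2` (`q = 3`), `lcm N 3` (`q = 2`) to the level `N`), VERBATIM, from
`H562.kummerTarget_d2` (norm trick).
-/

set_option autoImplicit false

namespace Fermat.Agent.A2.H562

open Fermat.Agent.A2.Top.H994

/-- **D2** in the exact shape consumed by `Top.H994.wall` / `kummerTarget_all`. -/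
theorem d2Statement : D2Statement := by
  intro N q m _hq _hqN _hq2 hN hm hqm
  haveI : NeZero N := ⟨hN⟩
  exact kummerTarget_d2 N q m hm.ne' hqm

/-- The wall A2 for all `q ‖ N` from ALG, IF and MOD at the levels with the auxiliary prime. -/
theorem wall_of_alg_if_mod (hALG : AlgSSStatement) (hIF : IFStatement)
    (hMOD : ModSSGoodStatement)
    (N q m : ℕ) (hq : q.Prime) (hqN : q ∣ N) (hq2 : ¬ q ^ 2 ∣ N) (hN : N ≠ 0) (hm : 0 < m)
    (hqm : ¬ q ∣ m) : Target N q m :=
  wall hALG hIF hMOD d2Statement N q m hq hqN hq2 hN hm hqm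

end Fermat.Agent.A2.H562
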